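import Fermat.Agent.SC.Frey
import Fermat.Agent.MX.B8
import Fermat.Agent.Mzr.Glue

/-!
# Mazur's theorem for stable lines
-/

set_option autoImplicit false
set_option linter.unusedSectionVars false

noncomputable section

namespace Fermat.Agent.SC

open WeierstrassCurve WeierstrassCurve.Affine WeierstrassCurve.Affine.Point
open Fermat.Agent.EC Fermat.Agent.MX Fermat.Agent.Mzr
open AlgebraicCurve Fermat.Agent.FunField Fermat.Agent.Flat Fermat.Agent.LG Fermat.Agent.ModFun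
open Fermat.Agent.Geo Fermat.Agent.GC Fermat.Agent.WP
open Fermat.Agent.ESCore (HauptFn haupt2 haupt3)

theorem liftD_of_nearL {p : ℕ} [hp : Fact p.Prime] {κ : ℤ} {N M : ℕ} [hN : Fact N.Prime]
    [NeZero N] [NeZero M] {H : HauptFn p κ} {A : ValuationSubring (AlgebraicClosure ℚ)}
    {hpM : p ∣ M} {hNM : N ∣ M} {x c : FixPl N} (h : NearL H A hpM hNM x.pl c.pl) :
    LiftD A (tF H hpM)⁻¹ hNM x c := by
  obtain ⟨-, x', c', h1, h2, h3, h4, h5, h6, h7⟩ := h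
  exact ⟨⟨x', h3⟩, ⟨c', fun σ _ => h4 σ⟩, h1, h2, h5, h6, h7⟩

theorem s15G : S15G := by
  intro p hp h17 W Q hΔ hst hord h2Δ h2c h2 h3Δ h3c h3 ℓ hℓ hℓp hℓΔ hℓc hdvd A hA
  by_contra hnot
  haveI : NeZero p := ⟨hp.out.ne_zero⟩
  have hℓ2 : ℓ ≠ 2 := by rintro rfl; exact hnot (h2 A hA)
  have hℓ3 : ℓ ≠ 3 := by rintro rfl; exact hnot (h3 A hA)
  have hℓ4 : ℓ ≠ 4 := by rintro rfl; exact absurd hℓ (by decide)
  have hℓ5 : 5 ≤ ℓ := by
    have := hℓ.two_le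
    omega
  have hp' : p ∉ ({2, 3, 5, 7, 13} : Finset ℕ) := by
    intro h
    simp only [Finset.mem_insert, Finset.mem_singleton] at h
    omega
  obtain ⟨x, hx⟩ := exists_x_st (N := p) (by omega) hΔ hst hord h2c
  have h23 : Near23 x cI := by
    refine ⟨fun B hB => ?_, fun B hB => ?_⟩
    · exact liftD_of_nearL (((hx 2 Nat.prime_two (by omega) h2Δ h2c B hB).2.1 (by norm_num)).1
        (h2 B hB))
    · exact liftD_of_nearL (((hx 3 Nat.prime_three (by omega) h3Δ h3c B hB).2.2 (by norm_num)).1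
        (h3 B hB))
  obtain ⟨hvx, -, h4⟩ := hx ℓ hℓ hℓp hℓΔ hℓc A hA
  exact mazur_final hp' x cI cO (Or.inr ⟨rfl, rfl⟩) h23 hℓ hℓ5 hℓp hdvd hA hvx
    ((h4 hℓ2).2 hnot).1

end Fermat.Agent.SC
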