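import Fermat.Agent.EC.TwoAdic
import Fermat.Agent.ECT.Multiples

/-!
# The zero component at a multiplicative place
-/

set_option autoImplicit false
set_option linter.unusedSectionVars false

open WeierstrassCurve WeierstrassCurve.Affine

namespace Fermat.Agent.SC

open Fermat.Agent.EC

variable {K : Type*} [Field K] {Γ₀ : Type*} [LinearOrderedCommGroupWithZero Γ₀]
  {v : Valuation K Γ₀} {W : WeierstrassCurve K} [DecidableEq K]

/-- The zero component of a curve in multiplicative form. -/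
def InE0 (v : Valuation K Γ₀) (P : W.toAffine.Point) : Prop := P = 0 ∨ 1 ≤ v (xc P)

omit [DecidableEq K] in
lemma inE0_zero : InE0 v (0 : W.toAffine.Point) := Or.inl rfl

lemma inE0_neg {P : W.toAffine.Point} (h : InE0 v P) : InE0 v (-P) := by
  rcases h with rfl | h
  · left; exact neg_zero
  · right; rwa [ECT.xc_neg]

omit [DecidableEq K] in
lemma v_mul_le_sq {a b : Γ₀} (ha : 1 ≤ a) (hb : 1 ≤ b) : a ≤ (a * b) ^ 2 ∧ b ≤ (a * b) ^ 2 ∧
    a * b ≤ (a * b) ^ 2 ∧ 1 ≤ (a * b) ^ 2 := by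
  have hab : 1 ≤ a * b := one_le_mul_of_one_le_of_one_le ha hb
  have h1 : a * b ≤ (a * b) ^ 2 := by
    rw [sq]
    exact le_mul_of_one_le_left' hab
  exact ⟨(le_mul_of_one_le_right' hb).trans h1, (le_mul_of_one_le_left' ha).trans h1, h1,
    hab.trans h1⟩

theorem inE0_add (hM : MultForm v W) {A B : W.toAffine.Point} (hA : InE0 v A) (hB : InE0 v B) :
    InE0 v (A + B) := by
  rcases hA with rfl | hA
  · rwa [zero_add]
  by_cases hB0 : B = 0
  · rw [hB0, add_zero]; exact Or.inr hA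
  rcases hB with hB | hB
  · exact absurd hB hB0
  by_cases hA0 : A = 0
  · rw [hA0, zero_add]; exact Or.inr hB
  by_cases hAB : A + B = 0
  · exact Or.inl hAB
  right
  have hb4 : v W.b₄ < 1 := hM.b₄_le.trans_lt hM.a₆
  have hb6 : v W.b₆ < 1 := hM.b₆_le.trans_lt hM.a₆
  have hb8 : v W.b₈ < 1 := by rw [hM.b₈_eq]; exact hM.a₆
  by_contra hlt
  rw [not_le] at hlt
  by_cases hx : xc A = xc B
  · rcases eq_or_eq_neg_of_xc hA0 hB0 hx with h | h
    · subst h
      have key := xc_dbl hA0 hAB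
      obtain ⟨x, hxd⟩ : ∃ x, x = xc A := ⟨_, rfl⟩
      rw [← hxd] at key hA
      have hx4 : v x ^ 4 ≠ 0 := pow_ne_zero 4 (zero_lt_one.trans_le hA).ne'
      have h34 : v x ^ 3 ≤ v x ^ 4 := pow_le_pow_right₀ hA (by norm_num)
      have h24 : v x ^ 2 ≤ v x ^ 4 := pow_le_pow_right₀ hA (by norm_num)
      have h14 : v x ≤ v x ^ 4 := by
        conv_lhs => rw [← pow_one (v x)]
        exact pow_le_pow_right₀ hA (by norm_num)
      have h04 : 1 ≤ v x ^ 4 := one_le_pow₀ hA
      have h4v : v (4 : K) ≤ 1 := by exact_mod_cast v_nat_le (v := v) 4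
      have hD : v (4 * x ^ 3 + W.b₂ * x ^ 2 + 2 * W.b₄ * x + W.b₆) ≤ v x ^ 4 := by
        refine v_add_le (v_add_le (v_add_le ?_ ?_) ?_) (hb6.le.trans h04)
        · exact v_mul_le' h4v (by rw [map_pow]; exact h34)
        · exact v_mul_le' hM.b₂.le (by rw [map_pow]; exact h24)
        · exact v_mul_le' (v_mul_le' v_two_le hb4.le) h14
      have hN : v (x ^ 4 - W.b₄ * x ^ 2 - 2 * W.b₆ * x - W.b₈) = v x ^ 4 := by
        have e : x ^ 4 - W.b₄ * x ^ 2 - 2 * W.b₆ * x - W.b₈ =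
          x ^ 4 + (x ^ 2 * -W.b₄ + 2 * x * -W.b₆ - W.b₈) := by ring
        rw [e, Valuation.map_add_eq_of_lt_left v, map_pow]
        rw [map_pow]
        refine v_sub_lt (v_add_lt ?_ ?_) (hb8.trans_le h04)
        · exact v_mul_lt_of_lt hx4 (by rw [map_pow]; exact h24) (by rw [Valuation.map_neg]; exact hb4)
        · exact v_mul_lt_of_lt hx4 (v_mul_le' v_two_le h14) (by rw [Valuation.map_neg]; exact hb6)
      rw [← key, mul_comm] at hN
      have := v_mul_lt_of_lt hx4 hD hlt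
      rw [hN] at this
      exact lt_irrefl _ this
    · apply hAB
      rw [h, neg_add_cancel]
  · obtain ⟨δ, hδ⟩ : ∃ δ, δ = (v (xc A) * v (xc B)) ^ 2 := ⟨_, rfl⟩
    obtain ⟨ha, hb, hab, h1⟩ := v_mul_le_sq hA hB
    rw [← hδ] at ha hb hab h1
    have hδ0 : δ ≠ 0 := (zero_lt_one.trans_le h1).ne'
    have k1 := xc_mul hA0 hB0 hx
    have k2 := ECT.xc_add hA0 hB0 hx
    obtain ⟨S, hS⟩ : ∃ S, S = xc (A + B) := ⟨_, rfl⟩
    obtain ⟨D, hD⟩ : ∃ D, D = xc (A - B) := ⟨_, rfl⟩
    obtain ⟨x, hxd⟩ : ∃ x, x = xc A := ⟨_, rfl⟩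
    obtain ⟨y, hyd⟩ : ∃ x, x = xc B := ⟨_, rfl⟩
    rw [← hS] at hlt k1 k2
    rw [← hD] at k1 k2
    rw [← hxd] at k1 k2 hA hδ hab ha
    rw [← hyd] at k1 k2 hB hδ hab hb
    have hM2 : v (x ^ 2 * y ^ 2 - W.b₄ * (x * y) - W.b₆ * (x + y) - W.b₈) = δ := by
      have e : x ^ 2 * y ^ 2 - W.b₄ * (x * y) - W.b₆ * (x + y) - W.b₈ =
        x ^ 2 * y ^ 2 + (x * y * -W.b₄ + (x + y) * -W.b₆ - W.b₈) := by ring
      have e2 : v (x ^ 2 * y ^ 2) = δ := by rw [map_mul, map_pow, map_pow, hδ, mul_pow]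
      rw [e, Valuation.map_add_eq_of_lt_left v, e2]
      rw [e2]
      refine v_sub_lt (v_add_lt ?_ ?_) (hb8.trans_le h1)
      · exact v_mul_lt_of_lt hδ0 (by rw [map_mul]; exact hab) (by rw [Valuation.map_neg]; exact hb4)
      · exact v_mul_lt_of_lt hδ0 (v_add_le ha hb) (by rw [Valuation.map_neg]; exact hb6)
    by_cases hD1 : v D ≤ 1
    · have h2 : v ((x - y) ^ 2) ≤ δ := by
        rw [map_pow, hδ]
        refine pow_le_pow_left₀ zero_le (v_sub_le ?_ ?_) 2
        · exact le_mul_of_one_le_right' hB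
        · exact le_mul_of_one_le_left' hA
      have h3 := v_mul_lt_of_lt hδ0 h2 (b := S * D) (by
        rw [mul_comm]; exact v_lt_mul hD1 hlt)
      rw [k1, hM2] at h3
      exact lt_irrefl _ h3
    · rw [not_le] at hD1
      have h2 : v (S + D) = v D := by
        rw [add_comm]; exact Valuation.map_add_eq_of_lt_left v (hlt.trans hD1)
      have h3 : v ((x - y) ^ 2 * D) ≤ δ := by
        rw [map_mul, ← h2, ← map_mul, k2]
        refine v_add_le (v_add_le (v_add_le ?_ ?_) ?_) (hb6.le.trans h1)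
        · have e : 2 * x * y * (x + y) = 2 * (x * y * (x + y)) := by ring
          rw [e]
          refine v_mul_le' v_two_le ?_
          rw [map_mul, map_mul, hδ, sq]
          refine mul_le_mul_right ?_ _
          exact v_add_le (le_mul_of_one_le_right' hB) (le_mul_of_one_le_left' hA)
        · rw [mul_assoc]
          exact v_mul_le' hM.b₂.le (by rw [map_mul]; exact hab)
        · exact v_mul_le' hb4.le (v_add_le ha hb)
      have h4 := v_mul_lt_of_lt hδ0 h3 hlt
      have e : (x - y) ^ 2 * D * S = (x - y) ^ 2 * (S * D) := by ring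
      rw [e, k1, hM2] at h4
      exact lt_irrefl _ h4

theorem inE0_nsmul (hM : MultForm v W) {A : W.toAffine.Point} (hA : InE0 v A) (n : ℕ) :
    InE0 v (n • A) := by
  induction n with
  | zero => rw [zero_smul]; exact inE0_zero
  | succ n ih => rw [add_smul, one_smul]; exact inE0_add hM ih hA

theorem inE0_zsmul (hM : MultForm v W) {A : W.toAffine.Point} (hA : InE0 v A) (n : ℤ) :
    InE0 v (n • A) := by
  obtain ⟨m, rfl | rfl⟩ := n.eq_nat_or_neg
  · rw [natCast_zsmul]; exact inE0_nsmul hM hA m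
  · rw [neg_smul, natCast_zsmul]; exact inE0_neg (inE0_nsmul hM hA m)

/-- two points with the same valuation of `X` on a nonzero component are congruent up to sign -/
theorem inE0_pm (hM : MultForm v W) {A B : W.toAffine.Point} (hA : A ≠ 0) (hB : B ≠ 0)
    (h : v (xc A) = v (xc B)) (h1 : v (xc A) < 1) (h2 : v W.a₆ < v (xc A) ^ 2) :
    InE0 v (A + B) ∨ InE0 v (A - B) := by
  by_cases hx : xc A = xc B
  · rcases eq_or_eq_neg_of_xc hA hB hx with e | e
    · right; rw [e, sub_self]; exact inE0_zero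
    · left; rw [e, neg_add_cancel]; exact inE0_zero
  have key := hM.v_add_sum hA hB h1 (h ▸ h1) h2 (h ▸ h2) hx
  have h0 : v (xc A) ^ 2 ≠ 0 := (zero_le.trans_lt h2).ne'
  by_contra hcon
  rw [not_or] at hcon
  have h3 : v (xc (A + B)) < 1 := by
    by_contra hge
    exact hcon.1 (Or.inr (not_lt.mp hge))
  have h4 : v (xc (A - B)) < 1 := by
    by_contra hge
    exact hcon.2 (Or.inr (not_lt.mp hge))
  have h5 : v (xc (A + B) + xc (A - B)) < 1 := v_add_lt h3 h4
  have h6 : v ((xc A - xc B) ^ 2) ≤ v (xc A) ^ 2 := by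
    rw [map_pow]
    exact pow_le_pow_left₀ zero_le (v_sub_le le_rfl h.symm.le) 2
  have h7 := v_mul_lt_of_lt h0 h6 h5
  rw [map_mul, map_pow, key, ← h, ← sq] at h7
  exact lt_irrefl _ h7

/-- **The eigenvalue of an isometry on a cyclic group outside of the zero component.** -/
theorem dvd_of_not_inE0 (hM : MultForm v W) {p : ℕ} (hp : p.Prime) (hp2 : p ≠ 2)
    {Q : W.toAffine.Point} (hQ : p • Q = 0) (hnot : ¬ InE0 v Q) {k : ℤ}
    (hv : v (xc (k • Q)) = v (xc Q)) (hk : k • Q ≠ 0) : (p : ℤ) ∣ k + 1 ∨ (p : ℤ) ∣ k - 1 := by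
  have hQ0 : Q ≠ 0 := fun h => hnot (Or.inl h)
  have hmul : ∀ m : ℤ, ¬ (p : ℤ) ∣ m → ¬ InE0 v (m • Q) := by
    intro m hm h
    apply hnot
    have hcop : IsCoprime (p : ℤ) m := (Prime.coprime_iff_not_dvd
      (Nat.prime_iff_prime_int.mp hp)).mpr hm
    obtain ⟨a, b, hab⟩ := hcop
    have h1 : Q = b • (m • Q) := by
      have h2 : (a * p + b * m) • Q = Q := by rw [hab, one_smul]
      rw [add_smul, mul_smul, mul_smul, natCast_zsmul, hQ, smul_zero, zero_add] at h2
      exact h2.symm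
    rw [h1]
    exact inE0_zsmul hM h b
  have h1 : v (xc Q) < 1 := by
    by_contra hge
    exact hnot (Or.inr (not_lt.mp hge))
  have h2 : v W.a₆ < v (xc Q) ^ 2 := by
    by_contra hle
    rw [not_lt] at hle
    have h2p : ¬ (p : ℤ) ∣ 2 := by
      intro h
      have h3 : p ∣ 2 := by exact_mod_cast h
      exact hp2 ((Nat.prime_dvd_prime_iff_eq hp Nat.prime_two).mp h3)
    have hn := hmul 2 h2p
    rw [two_smul] at hn
    have h3 : Q + Q ≠ 0 := fun h => hn (Or.inl h)
    exact hn (Or.inr (hM.two_nsmul_big hQ0 h3 h1 hle))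
  rcases inE0_pm hM hk hQ0 hv (hv ▸ h1) (hv ▸ h2) with h | h
  · left
    by_contra hd
    apply hmul _ hd
    rwa [add_smul, one_smul]
  · right
    by_contra hd
    apply hmul _ hd
    rwa [sub_smul, one_smul]

end Fermat.Agent.SC
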