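import Fermat.Agent.SC.Prod

/-!
# The Frey curve has no cofixed line, given Mazur's theorem
-/

set_option autoImplicit false
set_option linter.unusedSectionVars false

open Matrix
open scoped Pointwise
open WeierstrassCurve WeierstrassCurve.Affine WeierstrassCurve.Affine.Point

noncomputable section

namespace Fermat.Agent.SC

open Fermat.Agent.EC Fermat.Agent.RT Fermat.Agent.ESCore Fermat.Agent.GaloisBasics

/-- The field of algebraic numbers. -/
local notation "Kb" => AlgebraicClosure ℚ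
/-- The absolute Galois group. -/
local notation "GQ" => (AlgebraicClosure ℚ ≃ₐ[ℚ] AlgebraicClosure ℚ)

/-- Mazur's theorem for stable lines in the zero component at `2` and `3`. -/
def S15G : Prop := ∀ (p : ℕ) [Fact p.Prime], 17 ≤ p → ∀ (W : WeierstrassCurve ℤ)
  (Q : ((W.map (Int.castRingHom ℚ))⁄Kb).Point), W.Δ ≠ 0 →
  (∀ σ : GQ, ∃ k : ℕ, σ • Q = k • Q) → addOrderOf Q = p →
  (2 : ℤ) ∣ W.Δ → ¬ (2 : ℤ) ∣ W.c₄ →
  (∀ A : ValuationSubring Kb, A.LiesOverPrime 2 → W.InZeroComponentAt A Q) →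
  (3 : ℤ) ∣ W.Δ → ¬ (3 : ℤ) ∣ W.c₄ →
  (∀ A : ValuationSubring Kb, A.LiesOverPrime 3 → W.InZeroComponentAt A Q) →
  ∀ ℓ : ℕ, ℓ.Prime → ℓ ≠ p → (ℓ : ℤ) ∣ W.Δ → ¬ (ℓ : ℤ) ∣ W.c₄ → p ∣ ℓ ^ 2 - 1 →
  ∀ A : ValuationSubring Kb, A.LiesOverPrime ℓ → W.InZeroComponentAt A Q

variable {W : WeierstrassCurve ℤ} {p : ℕ} [hp : Fact p.Prime]

/-- The rational curve of an integral model. -/
local notation "WQ" => WeierstrassCurve.map W (Int.castRingHom ℚ)

variable {hΔ : W.Δ ≠ 0}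
  {N : Submodule (ZMod p) (TorsP (WeierstrassCurve.map W (Int.castRingHom ℚ)) p)}

theorem nsat_of_zero {A : ValuationSubring Kb} {x y : Kb}
    {h : ((WQ)⁄Kb).toAffine.Nonsingular x y}
    (hz : W.InZeroComponentAt A (Point.some x y h : ((WQ)⁄Kb).Point)) (hx : A.valuation x ≤ 1) :
    NSat A.valuation ((WQ)⁄Kb) x y := by
  have hxA : x ∈ A := (A.valuation_le_one_iff x).mp hx
  have hyA : y ∈ A := (A.valuation_le_one_iff y).mp (y_integral (ss_vint W A) h.1 hx)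
  refine (MX.res_nonsing_iff W A (by simp [WeierstrassCurve.baseChange])
    (by simp [WeierstrassCurve.baseChange]) (by simp [WeierstrassCurve.baseChange])
    (by simp [WeierstrassCurve.baseChange]) (by simp [WeierstrassCurve.baseChange]) hxA hyA h.1).mp ?_
  rcases hz with h0 | ⟨x', y', h', hxy, h0⟩
  · exact absurd h0 (Point.some_ne_zero _)
  cases hxy
  rcases h0 with h0 | ⟨_, _, h0⟩
  · exact absurd hxA h0
  · exact h0

theorem Cof.addOrderOf_eq {Q : TorsP (WQ) p} (hQ0 : Q ≠ 0) :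
    addOrderOf (Q : ((WQ)⁄Kb).Point) = p := by
  have h1 := addOrderOf_dvd_of_nsmul_eq_zero (torsion_smul Q)
  rcases (Nat.dvd_prime hp.out).mp h1 with h2 | h2
  · rw [AddMonoid.addOrderOf_eq_one_iff] at h2
    exact absurd (Subtype.ext h2) hQ0
  · exact h2

theorem Cof.stable (h : Cof hΔ N) {Q : TorsP (WQ) p} (hQ : Q ∈ N) (σ : GQ) :
    ∃ k : ℕ, σ • (Q : ((WQ)⁄Kb).Point) = k • (Q : ((WQ)⁄Kb).Point) := by
  haveI : NeZero p := ⟨hp.out.ne_zero⟩
  refine ⟨((cyc p σ : (ZMod p)ˣ) : ZMod p).val, ?_⟩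
  have h1 := h.smul_eq σ hQ
  rw [← ZMod.natCast_zmod_val ((cyc p σ : (ZMod p)ˣ) : ZMod p), Nat.cast_smul_eq_nsmul] at h1
  exact congrArg Subtype.val h1

/-- All nonzero points of the line are nonsingular modulo all places. -/
theorem Cof.nsat (h : Cof hΔ N) (hS : S15G) (h17 : 17 ≤ p) (hss : W.IsSemistableModel)
    (h2 : (2 : ℤ) ∣ W.Δ) {q : ℕ} (hq : q.Prime) {A : ValuationSubring Kb}
    (hA : A.LiesOverPrime q) {Q : TorsP (WQ) p} (hQ : Q ∈ N) (hQ0 : Q ≠ 0) {x y : Kb}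
    {hxy : ((WQ)⁄Kb).toAffine.Nonsingular x y}
    (hQxy : (Q : ((WQ)⁄Kb).Point) = Point.some x y hxy) (hx : A.valuation x ≤ 1) :
    NSat A.valuation ((WQ)⁄Kb) x y := by
  have hp2 : p ≠ 2 := by omega
  have hvq : A.valuation ((q : ℕ) : Kb) < 1 := hA
  by_cases hqΔ : (q : ℤ) ∣ W.Δ
  · apply nsat_of_zero (h := hxy) _ hx
    rw [← hQxy]
    by_cases hqp : q = p
    · subst hqp
      exact h.zero_at_p hss hp2 hA hQ hQ0
    · by_contra hnot
      have hqc := hss q hq hqΔ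
      have hd := h.dvd_of_not_zero hp2 hq hqp hqΔ hqc hA hQ hQ0 hnot
      have h3 : (3 : ℤ) ∣ W.Δ := h.three_dvd (by omega)
      refine hnot (hS p h17 W _ hΔ (h.stable hQ) (addOrderOf_eq hQ0) h2
        (hss 2 Nat.prime_two h2) (fun B hB => ?_) h3 (hss 3 Nat.prime_three h3)
        (fun B hB => ?_) q hq hqp hqΔ hqc hd A hA)
      · by_contra hn
        have := Nat.le_of_dvd (by norm_num) (h.dvd_of_not_zero hp2 Nat.prime_two (by omega) h2
          (hss 2 Nat.prime_two h2) hB hQ hQ0 hn)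
        omega
      · by_contra hn
        have := Nat.le_of_dvd (by norm_num) (h.dvd_of_not_zero hp2 Nat.prime_three (by omega) h3
          (hss 3 Nat.prime_three h3) hB hQ hQ0 hn)
        omega
  · exact nonsing_of_unit_disc (ss_vint W A) (by rw [ss_Δ]; exact v_int_eq_one hq hvq hqΔ) hxy.1 hx

theorem Cof.false_of (h : Cof hΔ N) (hS : S15G) (h17 : 17 ≤ p) (hss : W.IsSemistableModel)
    (h2 : (2 : ℤ) ∣ W.Δ) (h₁ : W.a₁ = 1) (h₃ : W.a₃ = 0) (h₆ : W.a₆ = 0) {A B : ℤ}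
    (hB : 1 + 4 * W.a₂ = 4 * B - A) (hAB : 4 * W.a₄ = -(A * B)) (hB2 : 2 ≤ |B|) : False := by
  have hodd : Odd p := hp.out.odd_of_ne_two (by omega)
  have e1 : ((WQ)⁄Kb).a₁ = 1 := by simp [WeierstrassCurve.baseChange, h₁]
  have e3 : ((WQ)⁄Kb).a₃ = 0 := by simp [WeierstrassCurve.baseChange, h₃]
  have e2 : ((WQ)⁄Kb).a₂ = (W.a₂ : Kb) := by simp [WeierstrassCurve.baseChange]
  have e4 : ((WQ)⁄Kb).a₄ = (W.a₄ : Kb) := by simp [WeierstrassCurve.baseChange]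
  have e6 : ((WQ)⁄Kb).a₆ = 0 := by simp [WeierstrassCurve.baseChange, h₆]
  have hBK : 1 + 4 * (W.a₂ : Kb) = 4 * B - A := by exact_mod_cast congrArg (fun z : ℤ => (z : Kb)) hB
  have hABK : 4 * (W.a₄ : Kb) = -(A * B) := by exact_mod_cast congrArg (fun z : ℤ => (z : Kb)) hAB
  -- the finite places
  have hfin : ∀ f : ℤ, (f = 0 ∨ f = -B) → ∀ q : ℕ, q.Prime → ∃ A : ValuationSubring Kb,
      A.LiesOverPrime q ∧
      ∀ Q ∈ N, Q ≠ 0 → 1 ≤ A.valuation (xc (Q : ((WQ)⁄Kb).Point) - (f : Kb)) := by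
    intro f hf q hq
    obtain ⟨V, hV⟩ := exists_liesOverPrime hq
    refine ⟨V, hV, fun Q hQ hQ0 => ?_⟩
    obtain ⟨P, hP⟩ : ∃ P, P = (Q : ((WQ)⁄Kb).Point) := ⟨_, rfl⟩
    rcases P with _ | ⟨x, y, hxy⟩
    · exact absurd (Subtype.ext hP.symm) hQ0
    rw [← hP, xc_some]
    have hpQ := torsion_smul Q
    rw [← hP] at hpQ
    have heq := (equation_iff _ _).mp hxy.1
    rw [e1, e2, e3, e4, e6] at heq
    have hns := fun hx => h.nsat hS h17 hss h2 hq hV hQ hQ0 hP.symm (x := x) (y := y) hx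
    have k5 : (2 * y + x) ^ 2 = 4 * x ^ 3 + (1 + 4 * (W.a₂ : Kb)) * x ^ 2 +
        4 * (W.a₄ : Kb) * x := by
      linear_combination 4 * heq
    rcases hf with rfl | rfl
    · refine one_le_sub_root (ss_vint W V) hodd hxy hpQ hns (g := x ^ 2 * 4 +
        x * (4 * B - A : ℤ) + (-(A * B) : ℤ)) (v_int_le _) ?_ ?_
      · rw [e1, e3]
        push_cast
        linear_combination k5 + x ^ 2 * hBK + x * hABK
      · intro hx
        refine v_add_le (v_add_le ?_ ?_) (v_int_le _)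
        · exact v_mul_le' (v_pow_le_one hx 2) (by exact_mod_cast v_nat_le (v := V.valuation) 4)
        · exact v_mul_le' hx (v_int_le _)
    · refine one_le_sub_root (ss_vint W V) hodd hxy hpQ hns (g := x * (x * 4 - (A : ℤ)))
        (v_int_le _) ?_ ?_
      · rw [e1, e3]
        push_cast
        linear_combination k5 + x ^ 2 * hBK + x * hABK
      · intro hx
        refine v_mul_le' hx (v_sub_le ?_ (v_int_le _))
        exact v_mul_le' hx (by exact_mod_cast v_nat_le (v := V.valuation) 4)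
  -- the archimedean place
  rcases le_or_gt 0 B with hpos | hneg
  · refine h.contra 0 (hfin 0 (Or.inl rfl)) (fun Q hQ hQ0 => ?_)
    obtain ⟨r, hr, h0, h0'⟩ := h.arch h₁ h₃ h₆ hodd hB hAB hQ hQ0
    rw [abs_of_nonneg hpos] at hB2
    have hB2' : (2 : ℝ) ≤ B := by exact_mod_cast hB2
    rw [Int.cast_zero, sub_zero, hr, Complex.norm_real, Real.norm_eq_abs, abs_of_nonpos h0]
    linarith
  · refine h.contra (-B) (hfin (-B) (Or.inr rfl)) (fun Q hQ hQ0 => ?_)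
    obtain ⟨r, hr, h0, h0'⟩ := h.arch h₁ h₃ h₆ hodd hB hAB hQ hQ0
    rw [abs_of_neg hneg] at hB2
    have hB2' : (2 : ℝ) ≤ -B := by exact_mod_cast hB2
    have e : complexEmbedding (xc (Q : ((WQ)⁄Kb).Point) - ((-B : ℤ) : Kb)) = ((r + B : ℝ) : ℂ) := by
      rw [_root_.map_sub, hr, map_intCast]
      push_cast
      ring
    rw [e, Complex.norm_real, Real.norm_eq_abs, abs_of_nonpos h0']
    linarith

/-- **The Frey curve has no cofixed line.** -/
theorem no_cofixed (hS : S15G) (P : FreyPackage) (h17 : 17 ≤ P.p) :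
    ¬ HasGaloisStableCofixedLine (K := AlgebraicClosure ℚ) ℚ P.freyCurve P.p := by
  intro h
  haveI : Fact P.p.Prime := ⟨P.pp⟩
  obtain ⟨W, hW⟩ : ∃ W, W = P.freyCurveInt := ⟨_, rfl⟩
  rw [← freyInt_map, ← hW] at h
  have hΔ : W.Δ ≠ 0 := by rw [hW]; exact freyInt_Δ_ne_zero P
  obtain ⟨N, -, hb, ht, hcof⟩ := h
  have hC : Cof hΔ N := ⟨hb, ht, hcof⟩
  have h2b : (2 : ℤ) ∣ P.b := (ZMod.intCast_zmod_eq_zero_iff_dvd P.b 2).1 P.hb2
  obtain ⟨b, hb'⟩ := h2b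
  obtain ⟨n, hn⟩ : ∃ n, P.p = n + 5 := ⟨P.p - 5, by omega⟩
  obtain ⟨β, hβ⟩ : ∃ β, β = 2 ^ n * b ^ P.p := ⟨_, rfl⟩
  have hbβ : P.b ^ P.p = 32 * β := by
    rw [hb', mul_pow, hβ]
    have : (2 : ℤ) ^ P.p = 2 ^ n * 32 := by rw [hn, pow_add]; norm_num
    rw [this]
    ring
  have hβ0 : β ≠ 0 := by
    intro h0
    rw [h0, mul_zero] at hbβ
    exact P.hb0 (pow_eq_zero_iff (by omega) |>.mp hbβ)
  have ha2 := freyInt_a₂ (P := P)
  have ha4 := freyInt_a₄ (P := P)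
  have hd := freyInt_Δ (P := P)
  rw [hbβ, ← hW] at ha2 ha4 hd
  have h2 : (2 : ℤ) ∣ W.Δ := by
    refine ⟨2 * (P.a ^ P.p * β * P.c ^ P.p) ^ 2, ?_⟩
    linarith
  refine hC.false_of hS h17 (by rw [hW]; exact freyInt_semistable P) h2 (by rw [hW]; rfl)
    (by rw [hW]; rfl) (by rw [hW]; rfl) (A := P.a ^ P.p) (B := 8 * β) (by linarith) (by linarith) ?_
  rw [abs_mul]
  have h3 : 1 ≤ |β| := Int.one_le_abs hβ0
  norm_num
  linarith

end Fermat.Agent.SC
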