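import Fermat.Agent.SC.Comp
import Fermat.Agent.RT.SetE
import Fermat.Agent.ESCore.OrdLine
import Fermat.Agent.MX.Xs

/-!
# Cofixed lines in the torsion of a semistable curve
-/

set_option autoImplicit false
set_option linter.unusedSectionVars false

open Matrix
open WeierstrassCurve WeierstrassCurve.Affine WeierstrassCurve.Affine.Point

noncomputable section

namespace Fermat.Agent.SC

open Fermat.Agent.EC Fermat.Agent.RT Fermat.Agent.ESCore Fermat.Agent.GaloisBasics

/-- The field of algebraic numbers. -/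
local notation "Kb" => AlgebraicClosure ℚ
/-- The absolute Galois group. -/
local notation "GQ" => (AlgebraicClosure ℚ ≃ₐ[ℚ] AlgebraicClosure ℚ)

variable {W : WeierstrassCurve ℤ} {p : ℕ} [hp : Fact p.Prime]

/-- The rational curve of an integral model. -/
local notation "WQ" => WeierstrassCurve.map W (Int.castRingHom ℚ)

/-- A line with trivial quotient. -/
structure Cof (hΔ : W.Δ ≠ 0) (N : Submodule (ZMod p) (TorsP (WQ) p)) : Prop where
  bot : N ≠ ⊥
  top : N ≠ ⊤
  cof : ∀ (σ : GQ) (x : TorsP (WQ) p), σ • x - x ∈ N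

section Mat

variable {E : WeierstrassCurve ℚ}

theorem cayley {R : Type*} [CommRing R] (M : Matrix (Fin 2) (Fin 2) R) :
    M * M = M.trace • M - M.det • (1 : Matrix (Fin 2) (Fin 2) R) := by
  ext i j
  fin_cases i <;> fin_cases j <;>
    simp [Matrix.mul_apply, Fin.sum_univ_two, Matrix.trace_fin_two, Matrix.det_fin_two] <;> ring

theorem smul_smul_eq (b : Module.Basis (Fin 2) (ZMod p) (TorsP E p)) (σ : GQ) (x : TorsP E p) :
    σ • σ • x = (modRep b σ).val.trace • σ • x - (modRep b σ).val.det • x := by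
  apply b.repr.injective
  apply DFunLike.coe_injective
  have e : b.repr ((modRep b σ).val.trace • σ • x - (modRep b σ).val.det • x) =
      (modRep b σ).val.trace • b.repr (σ • x) - (modRep b σ).val.det • b.repr x := by
    rw [_root_.map_sub, LinearEquiv.map_smul, LinearEquiv.map_smul]
  rw [e, Finsupp.coe_sub, Finsupp.coe_smul, Finsupp.coe_smul, ← modRep_mulVec, ← modRep_mulVec,
    mulVec_mulVec, cayley, sub_mulVec, smul_mulVec, smul_mulVec, one_mulVec]

end Mat

variable {hΔ : W.Δ ≠ 0}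
  {N : Submodule (ZMod p) (TorsP (WeierstrassCurve.map W (Int.castRingHom ℚ)) p)}

theorem Cof.span (h : Cof hΔ N) {z : TorsP (WQ) p} (hz : z ∈ N) (hz0 : z ≠ 0) {x : TorsP (WQ) p}
    (hx : x ∈ N) : ∃ c : ZMod p, x = c • z := by
  haveI := isElliptic_map hΔ
  have h1 : Submodule.span (ZMod p) {z} = N := by
    refine eq_of_line_le (finrank_torsion (E := WQ) (p := p)) ?_ h.top ?_
    · rw [Ne, Submodule.span_singleton_eq_bot]; exact hz0
    · rw [Submodule.span_singleton_le_iff_mem]; exact hz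
  rw [← h1, Submodule.mem_span_singleton] at hx
  obtain ⟨c, hc⟩ := hx
  exact ⟨c, hc.symm⟩

/-- The Galois action on the line is cyclotomic. -/
theorem Cof.smul_eq (h : Cof hΔ N) (σ : GQ) {x : TorsP (WQ) p} (hx : x ∈ N) :
    σ • x = ((cyc p σ : (ZMod p)ˣ) : ZMod p) • x := by
  obtain ⟨b, hb⟩ : ∃ b, b = torsBasis p W hΔ := ⟨_, rfl⟩
  have hdet : (modRep b σ).val.det = ((cyc p σ : (ZMod p)ˣ) : ZMod p) := by
    rw [modRep_det, ss_det hΔ]
  have htr := trace_eq_of_moved b h.top (fun y => h.cof σ y)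
  rw [hdet] at htr
  have key : ∀ y : TorsP (WQ) p, σ • (σ • y - y) =
      ((cyc p σ : (ZMod p)ˣ) : ZMod p) • (σ • y - y) := by
    intro y
    have h1 := smul_smul_eq b σ y
    rw [htr, hdet, add_smul, one_smul] at h1
    rw [smul_sub, smul_sub, h1]
    abel
  by_cases h1 : ∀ y : TorsP (WQ) p, σ • y = y
  · have h2 : modRep b σ = 1 := (modRep_eq_one_iff b σ).mpr h1
    rw [h2, Units.val_one, det_one] at hdet
    rw [h1, ← hdet, one_smul]
  · push Not at h1
    obtain ⟨y, hy⟩ := h1
    obtain ⟨c, rfl⟩ := h.span (h.cof σ y) (sub_ne_zero.mpr hy) hx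
    rw [smul_zmod, key, smul_comm]

theorem Cof.trace (h : Cof hΔ N) (σ : GQ) : (modRep (torsBasis p W hΔ) σ).val.trace =
    1 + (modRep (torsBasis p W hΔ) σ).val.det :=
  trace_eq_of_moved _ h.top (fun y => h.cof σ y)

/-- The reduction at `3` is bad. -/
theorem Cof.three_dvd (h : Cof hΔ N) (hp11 : 11 ≤ p) : (3 : ℤ) ∣ W.Δ := by
  by_contra hgood
  have hgood' : W.IsGoodPrimeFor 3 := hgood
  obtain ⟨A, hA⟩ := exists_liesOverPrime Nat.prime_three
  obtain ⟨σ, hσ⟩ := exists_isFrobeniusAt Nat.prime_three A hA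
  have hp3 : 3 ≠ p := by omega
  obtain ⟨h1, h2⟩ := modRep_frob hΔ Nat.prime_three hgood' hp3 hA hσ
  have h3 := h.trace σ
  rw [h1, h2] at h3
  have h4 : (((W.reductionMod 3).card : ℤ) : ZMod p) = 0 := by
    have h5 : W.apOfModel 3 = (3 : ℤ) + 1 - ((W.reductionMod 3).card : ℤ) := by
      rw [apOfModel, traceOfFrobenius, Nat.card_zmod]
      norm_num
    rw [h5] at h3
    push_cast at h3
    push_cast
    linear_combination -h3
  have h6 : p ∣ (W.reductionMod 3).card := by
    rw [Int.cast_natCast, ZMod.natCast_eq_zero_iff] at h4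
    exact h4
  haveI : Fact (Nat.Prime 3) := ⟨Nat.prime_three⟩
  obtain ⟨f, hf⟩ : ∃ f : (W.reductionMod 3).toAffine.Point → Option (ZMod 3 × ZMod 3),
      Function.Injective f := by
    refine ⟨fun P => match P with
      | .zero => none
      | .some x y _ => some (x, y), ?_⟩
    rintro (_ | ⟨x, y, h⟩) (_ | ⟨x', y', h'⟩) hxy
    · rfl
    · cases hxy
    · cases hxy
    · simp only [Option.some.injEq, Prod.mk.injEq] at hxy
      obtain ⟨rfl, rfl⟩ := hxy
      rfl
  have h7 : Nat.card (W.reductionMod 3).toAffine.Point ≤ 10 := by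
    refine (Nat.card_le_card_of_injective f hf).trans ?_
    rw [Nat.card_eq_fintype_card]
    decide
  haveI : Finite (W.reductionMod 3).toAffine.Point := Finite.of_injective f hf
  have h8 : 0 < Nat.card (W.reductionMod 3).toAffine.Point := Nat.card_pos
  have h9 := Nat.le_of_dvd h8 h6
  omega

end Fermat.Agent.SC
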