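import Fermat.Agent.SC.Line

/-!
# Local conditions for cofixed lines
-/

set_option autoImplicit false
set_option linter.unusedSectionVars false

open Matrix
open scoped Pointwise
open WeierstrassCurve WeierstrassCurve.Affine WeierstrassCurve.Affine.Point

noncomputable section

namespace Fermat.Agent.SC

open Fermat.Agent.EC Fermat.Agent.RT Fermat.Agent.ESCore Fermat.Agent.GaloisBasics

section root

variable {K : Type*} [Field K] [DecidableEq K] {Γ₀ : Type*} [LinearOrderedCommGroupWithZero Γ₀]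
  {v : Valuation K Γ₀} {E : WeierstrassCurve K}

/-- The point is nonsingular modulo the place. -/
def NSat (v : Valuation K Γ₀) (E : WeierstrassCurve K) (x y : K) : Prop :=
  v (2 * y + E.a₁ * x + E.a₃) = 1 ∨ v (3 * x ^ 2 + 2 * E.a₂ * x + E.a₄ - E.a₁ * y) = 1

/-- a nonsingular point of odd order does not reduce to a point of order two. -/
theorem one_le_of_nsat (hE : VInt v E) {p : ℕ} (hodd : Odd p) {x y : K}
    (h : E.toAffine.Nonsingular x y) (hP : p • (Point.some x y h : E.toAffine.Point) = 0)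
    (hx : v x ≤ 1) (hns : NSat v E x y) : 1 ≤ v (2 * y + E.a₁ * x + E.a₃) := by
  by_contra hlt
  rw [not_le] at hlt
  obtain ⟨m, hm⟩ := hodd
  have hneg := (nonsingular_neg x y).mpr h
  have e1 : E.toAffine.negY x y - y = -(2 * y + E.a₁ * x + E.a₃) := by
    simp only [negY]; ring
  have key := sub_of_same_reduction hE h hneg hx (by rw [sub_self, _root_.map_zero]; exact zero_lt_one)
    (by rw [e1, Valuation.map_neg]; exact hlt) hns
  rw [← Point.neg_some h] at key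
  obtain ⟨P, hPd⟩ : ∃ P : E.toAffine.Point, P = .some x y h := ⟨_, rfl⟩
  rw [← hPd] at key hP
  have hker : InKer v (P + P) := by
    rcases key with k | ⟨X, Y, H, k1, k2⟩
    · left
      rw [← k]
      nth_rewrite 2 [k]
      rw [neg_add_cancel]
    · have h1 : InKer v (-P - P) := by
        rw [k1, inKer_some]; exact k2
      have h2 := inKer_neg h1
      rw [neg_sub, sub_neg_eq_add] at h2
      exact h2
  have h3 : InKer v P := by
    have e : P = -(m • (P + P)) := by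
      rw [hm, add_smul, one_smul, mul_comm, mul_smul, two_smul] at hP
      exact eq_neg_of_add_eq_zero_right hP
    rw [e]
    exact inKer_neg (inKer_nsmul hE hker m)
  rw [hPd, inKer_some] at h3
  exact absurd hx (not_le.mpr h3)

theorem one_le_sub_root (hE : VInt v E) {p : ℕ} (hodd : Odd p) {x y : K}
    (h : E.toAffine.Nonsingular x y) (hP : p • (Point.some x y h : E.toAffine.Point) = 0)
    (hns : v x ≤ 1 → NSat v E x y) {f g : K} (hf : v f ≤ 1)
    (hfac : (2 * y + E.a₁ * x + E.a₃) ^ 2 = (x - f) * g) (hg : v x ≤ 1 → v g ≤ 1) :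
    1 ≤ v (x - f) := by
  by_cases hx : v x ≤ 1
  · have h1 := one_le_of_nsat hE hodd h hP hx (hns hx)
    by_contra hlt
    rw [not_le] at hlt
    have h2 : v ((2 * y + E.a₁ * x + E.a₃) ^ 2) < 1 := by
      rw [hfac, mul_comm]
      exact v_lt_mul (hg hx) hlt
    rw [map_pow] at h2
    exact absurd h2 (not_lt.mpr (one_le_pow₀ h1))
  · rw [not_le] at hx
    rw [sub_eq_add_neg,
      Valuation.map_add_eq_of_lt_left v (by rw [Valuation.map_neg]; exact hf.trans_lt hx)]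
    exact hx.le

end root

/-- The field of algebraic numbers. -/
local notation "Kb" => AlgebraicClosure ℚ
/-- The absolute Galois group. -/
local notation "GQ" => (AlgebraicClosure ℚ ≃ₐ[ℚ] AlgebraicClosure ℚ)

section dec

variable {A : ValuationSubring Kb} {σ : GQ} {q : ℕ}

theorem dec_mem (hσ : σ ∈ A.decompositionSubgroup ℚ) {x : Kb} (hx : x ∈ A) : σ x ∈ A := by
  have h1 : σ • A = A := hσ
  rw [← h1]
  exact ValuationSubring.smul_mem_pointwise_smul σ x A hx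

theorem dec_iso (hq : q.Prime) (hA : A.LiesOverPrime q) (hσ : σ ∈ A.decompositionSubgroup ℚ)
    (x : Kb) : A.valuation (σ x) = A.valuation x := by
  have hvq : A.valuation (q : Kb) < 1 := hA
  by_cases hx : x = 0
  · rw [hx, _root_.map_zero]
  have hunit : ∀ y : Kb, A.valuation y = 1 → A.valuation (σ y) = 1 := by
    intro y hy
    have h1 : A.valuation (σ y) ≤ 1 := (A.valuation_le_one_iff _).mpr
      (dec_mem hσ ((A.valuation_le_one_iff _).mp hy.le))
    have h2 : A.valuation (σ y⁻¹) ≤ 1 := (A.valuation_le_one_iff _).mpr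
      (dec_mem hσ ((A.valuation_le_one_iff _).mp (by rw [map_inv₀, hy, inv_one])))
    rw [map_inv₀, map_inv₀] at h2
    have h3 : A.valuation (σ y) ≠ 0 := by
      rw [Valuation.ne_zero_iff, Ne, map_eq_zero]
      rintro rfl
      rw [_root_.map_zero] at hy
      exact zero_ne_one hy
    exact le_antisymm h1 ((inv_le_one₀ (zero_lt_iff.mpr h3)).mp h2)
  have hq0 : (q : Kb) ≠ 0 := by exact_mod_cast hq.ne_zero
  have hvq0 : A.valuation (q : Kb) ≠ 0 := (Valuation.ne_zero_iff _).mpr hq0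
  obtain ⟨t, ht, s, h⟩ := exists_pow_val hq hvq hx
  have h1 : A.valuation (x ^ t / (q : Kb) ^ s) = 1 := by
    rw [map_div₀, map_pow, map_zpow₀, h, div_self (zpow_ne_zero s hvq0)]
  have h2 := hunit _ h1
  rw [map_div₀ σ, map_pow σ, map_zpow₀ σ, map_natCast, map_div₀, map_pow, map_zpow₀,
    div_eq_one_iff_eq (zpow_ne_zero s hvq0), ← h] at h2
  exact (pow_left_inj₀ zero_le zero_le ht.ne').mp h2

end dec

variable {W : WeierstrassCurve ℤ} {p : ℕ} [hp : Fact p.Prime]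

/-- The rational curve of an integral model. -/
local notation "WQ" => WeierstrassCurve.map W (Int.castRingHom ℚ)

theorem inZero_iff {A : ValuationSubring Kb} (hc : A.valuation ((WQ)⁄Kb).c₄ = 1)
    (hΔv : A.valuation ((WQ)⁄Kb).Δ < 1) (hΔ : W.Δ ≠ 0) {Q : ((WQ)⁄Kb).Point} (hQ : Q ≠ 0) :
    W.InZeroComponentAt A Q ↔ 1 ≤ A.valuation (xc Q - nodeX ((WQ)⁄Kb)) := by
  by_cases hx : A.valuation (xc Q) ≤ 1
  · rw [MX.inZeroComponentAt_iff hc hΔv hΔ hQ hx, MX.v_Xs hc hΔv]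
  · rw [not_le] at hx
    have hn := (ss_vint W A).nodeX_le hc
    have h1 : 1 ≤ A.valuation (xc Q - nodeX ((WQ)⁄Kb)) := by
      rw [sub_eq_add_neg,
        Valuation.map_add_eq_of_lt_left _ (by rw [Valuation.map_neg]; exact hn.trans_lt hx)]
      exact hx.le
    refine iff_of_true ?_ h1
    rcases Q with _ | ⟨x, y, h⟩
    · exact absurd rfl hQ
    · refine Or.inr ⟨x, y, h, rfl, Or.inl fun hxA => ?_⟩
      rw [xc_some] at hx
      exact absurd ((A.valuation_le_one_iff x).mpr hxA) (not_le.mpr hx)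

theorem xc_symm {K : Type*} [Field K] [DecidableEq K] (E : WeierstrassCurve K)
    {Q : E.toAffine.Point} (hQ : Q ≠ 0) :
    xc ((pointEquiv E (nodeVC E)).symm Q) = xc Q - nodeX E := by
  obtain ⟨R, rfl⟩ := (pointEquiv E (nodeVC E)).surjective Q
  rw [AddEquiv.symm_apply_apply]
  rcases R with _ | ⟨X, Y, h⟩
  · exact absurd (_root_.map_zero _) hQ
  · rw [pointEquiv_apply, pointMap_some, xc_some, xc_some]
    simp [vcX, nodeVC]

variable {hΔ : W.Δ ≠ 0}
  {N : Submodule (ZMod p) (TorsP (WeierstrassCurve.map W (Int.castRingHom ℚ)) p)}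

/-- Outside of the zero component, `ℓ ^ 2 = 1` modulo `p`. -/
theorem Cof.dvd_of_not_zero (h : Cof hΔ N) (hp2 : p ≠ 2) {ℓ : ℕ} (hℓ : ℓ.Prime) (hℓp : ℓ ≠ p)
    (hℓΔ : (ℓ : ℤ) ∣ W.Δ) (hℓc : ¬ (ℓ : ℤ) ∣ W.c₄) {A : ValuationSubring Kb}
    (hA : A.LiesOverPrime ℓ) {Q : TorsP (WQ) p} (hQ : Q ∈ N) (hQ0 : Q ≠ 0)
    (hnot : ¬ W.InZeroComponentAt A (Q : ((WQ)⁄Kb).Point)) : p ∣ ℓ ^ 2 - 1 := by
  have hvq : A.valuation ((ℓ : ℕ) : Kb) < 1 := hA
  have hc₄ : A.valuation ((WQ)⁄Kb).c₄ = 1 := by rw [ss_c₄]; exact v_int_eq_one hℓ hvq hℓc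
  have hΔv : A.valuation ((WQ)⁄Kb).Δ < 1 := by rw [ss_Δ]; exact v_int_lt hvq hℓΔ
  obtain ⟨hM, -⟩ := (ss_vint W A).multForm hc₄ hΔv (ss_Δ0 hΔ)
  obtain ⟨E, hE⟩ : ∃ E, E = ((WQ)⁄Kb) := ⟨_, rfl⟩
  have hQ0' : (Q : ((WQ)⁄Kb).Point) ≠ 0 := fun h0 => hQ0 (Subtype.ext h0)
  obtain ⟨σ, hσ⟩ := exists_isFrobeniusAt hℓ A hA
  have hσd : σ ∈ A.decompositionSubgroup ℚ := hσ.1
  have hcyc : ((cyc p σ : (ZMod p)ˣ) : ZMod p) = (ℓ : ZMod p) := by
    haveI : NeZero p := ⟨hp.out.ne_zero⟩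
    exact cyc_frob hA hℓ hσ fun h => hℓp ((Nat.prime_dvd_prime_iff_eq hℓ hp.out).mp h)
  have h1 : σ • Q = ℓ • Q := by
    rw [h.smul_eq σ hQ, hcyc, Nat.cast_smul_eq_nsmul]
  have h1' : Point.map (W' := WQ) σ.toAlgHom (Q : ((WQ)⁄Kb).Point) =
      ℓ • (Q : ((WQ)⁄Kb).Point) := by
    rw [← coe_smul_torsion, h1]
    rfl
  have hσQ0 : Point.map (W' := WQ) σ.toAlgHom (Q : ((WQ)⁄Kb).Point) ≠ 0 := by
    rw [← coe_smul_torsion]
    intro h0
    apply hQ0
    have h2 : σ • Q = 0 := Subtype.ext h0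
    have h3 := congrArg (fun z => σ⁻¹ • z) h2
    simpa using h3
  have hX : nodeX ((WQ)⁄Kb) = algebraMap ℚ Kb (nodeX (WQ)) := nodeX_map _ _
  set C := nodeVC ((WQ)⁄Kb) with hC
  obtain ⟨R, hR⟩ : ∃ R, R = (pointEquiv ((WQ)⁄Kb) C).symm (Q : ((WQ)⁄Kb).Point) := ⟨_, rfl⟩
  have hxR : xc R = xc (Q : ((WQ)⁄Kb).Point) - nodeX ((WQ)⁄Kb) := by
    rw [hR]; exact xc_symm _ hQ0'
  have hRn : ¬ InE0 A.valuation R := by
    rintro (h0 | h0)
    · rw [hR, map_eq_zero_iff _ (AddEquiv.injective _)] at h0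
      exact hQ0' h0
    · rw [hxR] at h0
      exact hnot ((inZero_iff hc₄ hΔv hΔ hQ0').mpr h0)
  have hpR : p • R = 0 := by
    rw [hR, ← map_nsmul, torsion_smul, _root_.map_zero]
  have hℓR : ((ℓ : ℕ) : ℤ) • R = (pointEquiv ((WQ)⁄Kb) C).symm
      (Point.map (W' := WQ) σ.toAlgHom (Q : ((WQ)⁄Kb).Point)) := by
    rw [h1', map_nsmul, ← hR, natCast_zsmul]
  have hne : ((ℓ : ℕ) : ℤ) • R ≠ 0 := by
    rw [hℓR]
    intro h0
    rw [map_eq_zero_iff _ (AddEquiv.injective _)] at h0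
    exact hσQ0 h0
  have hv : A.valuation (xc (((ℓ : ℕ) : ℤ) • R)) = A.valuation (xc R) := by
    have e1 : xc (((ℓ : ℕ) : ℤ) • R) = σ (xc R) := by
      rw [hℓR, hxR]
      refine (xc_symm _ hσQ0).trans ?_
      rw [xc_map, hX, map_sub, AlgEquiv.commutes]
    rw [e1]
    exact dec_iso hℓ hA hσd _
  have key := dvd_of_not_inE0 hM hp.out hp2 hpR hRn hv hne
  have hℓ1 : 1 ≤ ℓ := hℓ.one_lt.le
  have h5 : (p : ℤ) ∣ ((ℓ ^ 2 - 1 : ℕ) : ℤ) := by
    rw [Nat.cast_sub (Nat.one_le_pow _ _ hℓ1)]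
    have e : ((ℓ ^ 2 : ℕ) : ℤ) - ((1 : ℕ) : ℤ) = ((ℓ : ℤ) + 1) * ((ℓ : ℤ) - 1) := by
      push_cast; ring
    rw [e]
    rcases key with k | k
    · exact k.mul_right _
    · exact k.mul_left _
  exact_mod_cast h5

/-- At a multiplicative place above `p` the line is in the zero component. -/
theorem Cof.zero_at_p (h : Cof hΔ N) (hss : W.IsSemistableModel) (hp2 : p ≠ 2)
    {A : ValuationSubring Kb} (hA : A.LiesOverPrime p) {Q : TorsP (WQ) p} (hQ : Q ∈ N)
    (hQ0 : Q ≠ 0) : W.InZeroComponentAt A (Q : ((WQ)⁄Kb).Point) := by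
  by_contra hnot
  have hQ0' : (Q : ((WQ)⁄Kb).Point) ≠ 0 := fun h0 => hQ0 (Subtype.ext h0)
  have hQker : ¬ InKer A.valuation (Q : ((WQ)⁄Kb).Point) := by
    rintro (h0 | h0)
    · exact hQ0' h0
    · apply hnot
      obtain ⟨P, hP⟩ := Q
      rcases P with _ | ⟨x, y, h⟩
      · exact absurd rfl hQ0'
      · refine Or.inr ⟨x, y, h, rfl, Or.inl fun hxA => ?_⟩
        exact absurd ((A.valuation_le_one_iff x).mpr hxA) (not_le.mpr h0)
  have hinf : ∀ z ∈ N, z ∈ kerSub A (ss_vint W A) → z = 0 := by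
    intro z hz hzk
    by_contra hz0
    obtain ⟨c, hc⟩ := h.span hz hz0 hQ
    apply hQker
    rw [← mem_kerSub (hW := ss_vint W A), hc]
    exact Submodule.smul_mem _ c hzk
  obtain ⟨σ, hσ, hne⟩ := exists_inertia_cyc p hp2 hA
  have h1 : ∀ x : TorsP (WQ) p, σ • x = x := by
    intro x
    have h2 := hinf _ (h.cof σ x) (ss_inKer hΔ hss hp2 hA hσ x)
    exact sub_eq_zero.mp h2
  apply hne
  have h3 := h.smul_eq σ hQ
  rw [h1] at h3
  have h4 : (((cyc p σ : (ZMod p)ˣ) : ZMod p) - 1) • Q = 0 := by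
    rw [sub_smul, one_smul, ← h3, sub_self]
  rcases smul_eq_zero.mp h4 with h5 | h5
  · apply Units.ext
    rw [Units.val_one]
    exact sub_eq_zero.mp h5
  · exact absurd h5 hQ0

end Fermat.Agent.SC
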