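import Fermat.Agent.SC.Local

/-!
# The product formula argument
-/

set_option autoImplicit false
set_option linter.unusedSectionVars false

open Matrix
open scoped Pointwise
open WeierstrassCurve WeierstrassCurve.Affine WeierstrassCurve.Affine.Point

noncomputable section

namespace Fermat.Agent.SC

open Fermat.Agent.EC Fermat.Agent.RT Fermat.Agent.ESCore Fermat.Agent.GaloisBasics

/-- The field of algebraic numbers. -/
local notation "Kb" => AlgebraicClosure ℚ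
/-- The absolute Galois group. -/
local notation "GQ" => (AlgebraicClosure ℚ ≃ₐ[ℚ] AlgebraicClosure ℚ)

/-- A rational number which is integral at all places is an integer. -/
theorem den_eq_one {c : ℚ} (h : ∀ q : ℕ, q.Prime → ∃ A : ValuationSubring Kb,
    A.LiesOverPrime q ∧ A.valuation (c : Kb) ≤ 1) : c.den = 1 := by
  by_contra hne
  obtain ⟨q, hq, hd⟩ := Nat.exists_prime_and_dvd hne
  obtain ⟨A, hA, hc⟩ := h q hq
  have hvq : A.valuation ((q : ℕ) : Kb) < 1 := hA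
  have hnum : ¬ (q : ℤ) ∣ c.num := by
    intro h1
    have h2 : q ∣ c.num.natAbs := Int.natCast_dvd.mp h1
    have h3 := Nat.dvd_gcd h2 hd
    have hred : Nat.gcd c.num.natAbs c.den = 1 := c.reduced
    rw [hred] at h3
    exact hq.one_lt.ne' (Nat.dvd_one.mp h3)
  have e : (c : Kb) * (c.den : Kb) = (c.num : Kb) := by
    have h1 : (c * c.den : ℚ) = c.num := Rat.mul_den_eq_num c
    exact_mod_cast congrArg (fun z : ℚ => (z : Kb)) h1
  have h1 : A.valuation (c.num : Kb) = 1 := v_int_eq_one hq hvq hnum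
  have h2 : A.valuation (c.den : Kb) < 1 := by
    have := v_int_lt hvq (n := (c.den : ℤ)) (by exact_mod_cast hd)
    exact_mod_cast this
  rw [← e, _root_.map_mul] at h1
  have h3 : A.valuation (c : Kb) * A.valuation (c.den : Kb) < 1 := by
    rw [← _root_.map_mul]; exact v_lt_mul hc h2
  rw [h1] at h3
  exact lt_irrefl _ h3

variable {W : WeierstrassCurve ℤ} {p : ℕ} [hp : Fact p.Prime]

/-- The rational curve of an integral model. -/
local notation "WQ" => WeierstrassCurve.map W (Int.castRingHom ℚ)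

variable {hΔ : W.Δ ≠ 0}
  {N : Submodule (ZMod p) (TorsP (WeierstrassCurve.map W (Int.castRingHom ℚ)) p)}

theorem one_le_prod {ι : Type*} {Γ₀ : Type*} [LinearOrderedCommGroupWithZero Γ₀] {s : Finset ι}
    {f : ι → Γ₀} (h : ∀ i ∈ s, 1 ≤ f i) : 1 ≤ ∏ i ∈ s, f i := by
  classical
  induction s using Finset.induction_on with
  | empty => rw [Finset.prod_empty]
  | insert a s ha ih =>
    rw [Finset.prod_insert ha]
    exact one_le_mul_of_one_le_of_one_le (h a (Finset.mem_insert_self a s))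
      (ih fun i hi => h i (Finset.mem_insert_of_mem hi))

theorem one_lt_prod_real {ι : Type*} {s : Finset ι} (hs : s.Nonempty) {f : ι → ℝ}
    (h : ∀ i ∈ s, 1 < f i) : 1 < ∏ i ∈ s, f i := by
  induction hs using Finset.Nonempty.cons_induction with
  | singleton a =>
    rw [Finset.prod_singleton]
    exact h a (Finset.mem_singleton_self a)
  | cons a s ha hs ih =>
    rw [Finset.prod_cons]
    exact one_lt_mul_of_lt_of_le (h a (Finset.mem_cons_self a s))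
      (ih fun i hi => h i (Finset.mem_cons_of_mem hi)).le

/-- **The product formula argument.** -/
theorem Cof.contra (h : Cof hΔ N) (f : ℤ)
    (hfin : ∀ q : ℕ, q.Prime → ∃ A : ValuationSubring Kb, A.LiesOverPrime q ∧
      ∀ Q ∈ N, Q ≠ 0 → 1 ≤ A.valuation (xc (Q : ((WQ)⁄Kb).Point) - (f : Kb)))
    (hinf : ∀ Q ∈ N, Q ≠ 0 → 1 < ‖complexEmbedding (xc (Q : ((WQ)⁄Kb).Point) - (f : Kb))‖) :
    False := by
  classical
  haveI := isElliptic_map hΔ
  haveI := finite_torsion' (E := WQ) hp.out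
  letI : Fintype (TorsP (WQ) p) := Fintype.ofFinite _
  let S : Finset (TorsP (WQ) p) := Finset.univ.filter (fun Q => Q ∈ N ∧ Q ≠ 0)
  have hS : ∀ Q, Q ∈ S ↔ Q ∈ N ∧ Q ≠ 0 := fun Q => by simp [S]
  have hstab : ∀ (σ : GQ) (Q : TorsP (WQ) p), Q ∈ S → σ • Q ∈ S := by
    intro σ Q hQ
    rw [hS] at hQ ⊢
    refine ⟨?_, ?_⟩
    · rw [h.smul_eq σ hQ.1]
      exact N.smul_mem _ hQ.1
    · intro h0
      apply hQ.2
      have := congrArg (fun z => σ⁻¹ • z) h0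
      simpa using this
  obtain ⟨D, hD⟩ : ∃ D, D = ∏ Q ∈ S, (xc (Q : ((WQ)⁄Kb).Point) - (f : Kb)) := ⟨_, rfl⟩
  have hfix : ∀ σ : GQ, σ D = D := by
    intro σ
    rw [hD, map_prod]
    refine Finset.prod_nbij (fun Q => σ • Q) (fun Q hQ => hstab σ Q hQ) ?_ ?_ ?_
    · intro Q _ Q' _ hQQ
      have := congrArg (fun z => σ⁻¹ • z) hQQ
      simpa using this
    · intro Q hQ
      exact ⟨σ⁻¹ • Q, hstab σ⁻¹ Q hQ, smul_inv_smul σ Q⟩
    · intro Q _
      rw [map_sub, map_intCast, coe_smul_torsion, xc_map]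
  obtain ⟨c, hc⟩ := rational_of_fixed hfix
  obtain ⟨Q₀, hQ₀, hQ₀0⟩ := Submodule.exists_mem_ne_zero_of_ne_bot h.bot
  have hSne : S.Nonempty := ⟨Q₀, (hS _).mpr ⟨hQ₀, hQ₀0⟩⟩
  have h1 : 1 < ‖complexEmbedding D‖ := by
    rw [hD, map_prod, norm_prod]
    exact one_lt_prod_real hSne fun Q hQ => hinf Q ((hS _).mp hQ).1 ((hS _).mp hQ).2
  have h2 : 1 < |c| := by
    rw [← hc, map_ratCast, Complex.norm_ratCast] at h1
    exact_mod_cast h1
  have hc0 : c ≠ 0 := by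
    rintro rfl
    rw [abs_zero] at h2
    exact absurd h2 (by norm_num)
  have h3 : (c⁻¹).den = 1 := by
    refine den_eq_one fun q hq => ?_
    obtain ⟨A, hA, hA'⟩ := hfin q hq
    refine ⟨A, hA, ?_⟩
    have h4 : 1 ≤ A.valuation (c : Kb) := by
      rw [hc, hD, map_prod]
      exact one_le_prod fun Q hQ => hA' Q ((hS _).mp hQ).1 ((hS _).mp hQ).2
    rw [Rat.cast_inv, map_inv₀]
    exact inv_le_one_of_one_le₀ h4
  have h5 : c⁻¹ = ((c⁻¹).num : ℚ) := by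
    conv_lhs => rw [← Rat.num_div_den (c⁻¹), h3]
    simp
  have h6 : |c⁻¹| < 1 := by
    rw [abs_inv]
    exact inv_lt_one_of_one_lt₀ h2
  rw [h5] at h6
  have h7 : |(c⁻¹).num| < 1 := by exact_mod_cast h6
  have h8 : (c⁻¹).num = 0 := Int.abs_lt_one_iff.mp h7
  rw [h8, Int.cast_zero] at h5
  exact hc0 (inv_eq_zero.mp h5)

/-! ### The archimedean place -/

theorem eq_zero_of_odd {G : Type*} [AddCommGroup G] {P : G} {p : ℕ} (hodd : Odd p)
    (h : p • P = 0) (h2 : P + P = 0) : P = 0 := by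
  obtain ⟨m, hm⟩ := hodd
  rw [hm, add_smul, one_smul, mul_comm, mul_smul, two_smul, h2, smul_zero, zero_add] at h
  exact h

section Arch

variable (h₁ : W.a₁ = 1) (h₃ : W.a₃ = 0) (h₆ : W.a₆ = 0)
include h₁ h₃ h₆

theorem Cof.real (h : Cof hΔ N) (hodd : Odd p) {Q : TorsP (WQ) p} (hQ : Q ∈ N) (hQ0 : Q ≠ 0) :
    ∃ r : ℝ, complexEmbedding (xc (Q : ((WQ)⁄Kb).Point)) = (r : ℂ) ∧
      4 * r ^ 3 + (1 + 4 * (W.a₂ : ℝ)) * r ^ 2 + 4 * (W.a₄ : ℝ) * r < 0 := by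
  haveI : NeZero p := ⟨hp.out.ne_zero⟩
  obtain ⟨c, hc, hcc⟩ : ∃ c : GQ, (∀ x, complexEmbedding (c x) =
      starRingEnd ℂ (complexEmbedding x)) ∧ ((cyc p c : (ZMod p)ˣ) : ZMod p) = -1 :=
    ⟨complexConjugation, complexEmbedding_complexConjugation, by
      rw [cyc_complexConjugation]⟩
  have h1 : c • Q = -Q := by
    rw [h.smul_eq _ hQ, hcc, neg_smul, one_smul]
  have h2 : Point.map (W' := WQ) c.toAlgHom (Q : ((WQ)⁄Kb).Point) =
      -(Q : ((WQ)⁄Kb).Point) := by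
    rw [← coe_smul_torsion, h1]; rfl
  have hpQ := torsion_smul Q
  have hQ0' : (Q : ((WQ)⁄Kb).Point) ≠ 0 := fun h0 => hQ0 (Subtype.ext h0)
  obtain ⟨P, hP⟩ : ∃ P, P = (Q : ((WQ)⁄Kb).Point) := ⟨_, rfl⟩
  rw [← hP] at h2 hpQ hQ0' ⊢
  rcases P with _ | ⟨x, y, hxy⟩
  · exact absurd rfl hQ0'
  rw [Point.neg_some] at h2
  obtain ⟨hx, hy⟩ : c x = x ∧ c y = ((WQ)⁄Kb).toAffine.negY x y := by
    injection h2 with hx hy
    exact ⟨hx, hy⟩
  have e1 : ((WQ)⁄Kb).a₁ = 1 := by simp [WeierstrassCurve.baseChange, h₁]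
  have e3 : ((WQ)⁄Kb).a₃ = 0 := by simp [WeierstrassCurve.baseChange, h₃]
  have e2 : ((WQ)⁄Kb).a₂ = (W.a₂ : Kb) := by simp [WeierstrassCurve.baseChange]
  have e4 : ((WQ)⁄Kb).a₄ = (W.a₄ : Kb) := by simp [WeierstrassCurve.baseChange]
  have e6 : ((WQ)⁄Kb).a₆ = 0 := by simp [WeierstrassCurve.baseChange, h₆]
  have heq := (equation_iff _ _).mp hxy.1
  rw [e1, e2, e3, e4, e6] at heq
  simp only [negY] at hy
  rw [e1, e3] at hy
  rw [xc_some]
  have k1 : starRingEnd ℂ (complexEmbedding x) = complexEmbedding x := by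
    rw [← hc, hx]
  obtain ⟨r, hr⟩ := Complex.conj_eq_iff_real.mp k1
  refine ⟨r, hr, ?_⟩
  have k2 : starRingEnd ℂ (complexEmbedding (2 * y + x)) = -complexEmbedding (2 * y + x) := by
    rw [← hc, ← _root_.map_neg]
    congr 1
    rw [_root_.map_add, _root_.map_mul, hx, hy, map_ofNat]
    ring
  obtain ⟨z, hz⟩ : ∃ z, z = complexEmbedding (2 * y + x) := ⟨_, rfl⟩
  rw [← hz] at k2
  have k3 : z.re = 0 := by
    have := congrArg Complex.re k2
    simp at this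
    linarith
  have k4 : z ^ 2 = ((-(z.im ^ 2) : ℝ) : ℂ) := by
    apply Complex.ext
    · simp [sq, k3]
    · simp [sq, k3]
  have k5 : (2 * y + x) ^ 2 = 4 * x ^ 3 + (1 + 4 * (W.a₂ : Kb)) * x ^ 2 + 4 * (W.a₄ : Kb) * x := by
    linear_combination 4 * heq
  have k6 : ((4 * r ^ 3 + (1 + 4 * (W.a₂ : ℝ)) * r ^ 2 + 4 * (W.a₄ : ℝ) * r : ℝ) : ℂ) =
      ((-(z.im ^ 2) : ℝ) : ℂ) := by
    rw [← k4, hz, ← _root_.map_pow, k5]
    simp only [_root_.map_add, _root_.map_mul, _root_.map_pow, map_ofNat, map_intCast, hr, _root_.map_one]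
    push_cast
    rfl
  rw [Complex.ofReal_inj] at k6
  rw [k6, neg_lt_zero]
  have k7 : z.im ≠ 0 := by
    intro h0
    have k8 : z = 0 := Complex.ext k3 h0
    rw [hz, map_eq_zero] at k8
    have k9 : y = ((WQ)⁄Kb).toAffine.negY x y := by
      simp only [negY]
      rw [e1, e3]
      linear_combination k8
    have k10 : (Point.some x y hxy : ((WQ)⁄Kb).Point) + Point.some x y hxy = 0 :=
      Point.add_self_of_Y_eq k9
    exact hQ0' (eq_zero_of_odd hodd hpQ k10)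
  positivity

/-- The real points of the line are on the unbounded part of the twist. -/
theorem Cof.arch (h : Cof hΔ N) (hodd : Odd p) {A B : ℤ} (hB : 1 + 4 * W.a₂ = 4 * B - A)
    (hAB : 4 * W.a₄ = -(A * B)) {Q : TorsP (WQ) p} (hQ : Q ∈ N) (hQ0 : Q ≠ 0) :
    ∃ r : ℝ, complexEmbedding (xc (Q : ((WQ)⁄Kb).Point)) = (r : ℂ) ∧ r ≤ 0 ∧ r + B ≤ 0 := by
  obtain ⟨r, hr, -⟩ := h.real h₁ h₃ h₆ hodd hQ hQ0
  obtain ⟨m, hm⟩ := hodd
  obtain ⟨R, hR⟩ : ∃ R, R = (m + 1) • Q := ⟨_, rfl⟩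
  have hRN : R ∈ N := by rw [hR]; exact N.smul_of_tower_mem _ hQ
  have h2R : R + R = Q := by
    have h1 : p • Q = 0 := by
      apply Subtype.ext
      exact torsion_smul Q
    rw [hR, ← add_smul]
    have e : m + 1 + (m + 1) = p + 1 := by omega
    rw [e, add_smul, h1, zero_add, one_smul]
  have hR0 : R ≠ 0 := by
    rintro rfl
    rw [add_zero] at h2R
    exact hQ0 h2R.symm
  obtain ⟨s, hs, hneg⟩ := h.real h₁ h₃ h₆ ⟨m, hm⟩ hRN hR0
  refine ⟨r, hr, ?_⟩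
  have h2R' : (R : ((WQ)⁄Kb).Point) + (R : ((WQ)⁄Kb).Point) = (Q : ((WQ)⁄Kb).Point) := by
    rw [← h2R]; rfl
  have hR0' : (R : ((WQ)⁄Kb).Point) ≠ 0 := fun h0 => hR0 (Subtype.ext h0)
  have hQ0' : (Q : ((WQ)⁄Kb).Point) ≠ 0 := fun h0 => hQ0 (Subtype.ext h0)
  have key := xc_dbl hR0' (by rw [h2R']; exact hQ0')
  rw [h2R'] at key
  have e1 : ((WQ)⁄Kb).a₁ = 1 := by simp [WeierstrassCurve.baseChange, h₁]
  have e3 : ((WQ)⁄Kb).a₃ = 0 := by simp [WeierstrassCurve.baseChange, h₃]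
  have e2 : ((WQ)⁄Kb).a₂ = (W.a₂ : Kb) := by simp [WeierstrassCurve.baseChange]
  have e4 : ((WQ)⁄Kb).a₄ = (W.a₄ : Kb) := by simp [WeierstrassCurve.baseChange]
  have e6 : ((WQ)⁄Kb).a₆ = 0 := by simp [WeierstrassCurve.baseChange, h₆]
  rw [b₂, b₄, b₆, b₈, e1, e2, e3, e4, e6] at key
  have key2 := congrArg complexEmbedding key
  simp only [_root_.map_add, _root_.map_sub, _root_.map_mul, _root_.map_pow, map_ofNat,
    map_intCast, hr, hs, _root_.map_one, _root_.map_zero] at key2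
  have key3 : r * (4 * s ^ 3 + (1 + 4 * (W.a₂ : ℝ)) * s ^ 2 + 4 * (W.a₄ : ℝ) * s) =
      (s ^ 2 - (W.a₄ : ℝ)) ^ 2 := by
    have e : (((r * (4 * s ^ 3 + (1 + 4 * (W.a₂ : ℝ)) * s ^ 2 + 4 * (W.a₄ : ℝ) * s) : ℝ)) : ℂ) =
      (((s ^ 2 - (W.a₄ : ℝ)) ^ 2 : ℝ) : ℂ) := by
      push_cast
      linear_combination key2
    exact_mod_cast e
  have hB' : 1 + 4 * (W.a₂ : ℝ) = 4 * B - A := by exact_mod_cast hB
  have hAB' : 4 * (W.a₄ : ℝ) = -(A * B) := by exact_mod_cast hAB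
  have key4 : (r + B) * (4 * s ^ 3 + (1 + 4 * (W.a₂ : ℝ)) * s ^ 2 + 4 * (W.a₄ : ℝ) * s) =
      (s ^ 2 + 2 * B * s + (W.a₄ : ℝ)) ^ 2 := by
    have e4' : (W.a₄ : ℝ) = -(A * B) / 4 := by linarith
    rw [add_mul, key3, hB', e4']
    ring
  obtain ⟨g, hg⟩ : ∃ g, g = 4 * s ^ 3 + (1 + 4 * (W.a₂ : ℝ)) * s ^ 2 + 4 * (W.a₄ : ℝ) * s :=
    ⟨_, rfl⟩
  rw [← hg] at hneg key3 key4
  constructor
  · by_contra hcon
    rw [not_le] at hcon
    have := mul_neg_of_pos_of_neg hcon hneg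
    rw [key3] at this
    exact absurd this (not_lt.mpr (sq_nonneg _))
  · by_contra hcon
    rw [not_le] at hcon
    have := mul_neg_of_pos_of_neg hcon hneg
    rw [key4] at this
    exact absurd this (not_lt.mpr (sq_nonneg _))

end Arch

end Fermat.Agent.SC
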